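import Mathlib
import Fermat.Prelude.Def_GaloisRep_DeformationRingData
import Fermat.Prelude.Def_GaloisRep_DeformationCondition
import Fermat.Prelude.Def_GaloisRep_LocalConditions
import Fermat.Prelude.Def_GaloisRep_StrictOrdinary
import Fermat.Prelude.Def_GaloisRep_Flat
import Fermat.Prelude.Def_GaloisRep_Residual

/-!
# Row S56 (Taylor–Wiles primes) — FROZEN definitions (row-lead helper956)

Everything here is sorry-free.  Pieces import THIS file and prove the `Prop`s of
`Fermat/Agent/S56/Spec.lean` verbatim.  Plan: `coord/S56.md` on `origin/helper956`.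

Conventions.  `k` is the residue field, `ρbar : ResidualGaloisRep k`, `V = ρbar.V`.
Cocycles are plain functions `c : G_ℚ → End_k V`:

* `Z1tw ρbar p`  — twisted trace-zero cocycles = `Z¹(G_ℚ, ad⁰ρ̄(1))`:
  `tr c(σ) = 0`,  `c(στ) = c(σ) + ε(σ) · ρ̄(σ) c(τ) ρ̄(σ)⁻¹`,  `c` factors through a finite level.
  The mod-`p` cyclotomic character is encoded by `IsCycExp p σ a` (`σ μ = μ ^ a` on `μ_p`).
* `B1tw ρbar p`  — the coboundaries `σ ↦ ε(σ) ρ̄(σ) m ρ̄(σ)⁻¹ − m`, `tr m = 0`.
* `LocTrivAt ρbar p q c` — `c` restricted to SOME decomposition group over `q` is a coboundary.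
* `IsTWPrime ρbar p S q` — `q ∉ S` prime, `q ≡ 1 mod p`, every Frobenius over `q` has distinct
  eigenvalues in `k`.
* `ordCond`, `flatCond` — the two deformation conditions of the frozen statement, as functions of
  the auxiliary set `Q`.
-/

set_option autoImplicit false

open Polynomial IsLocalRing

noncomputable section

namespace Fermat.Agent.S56

/-- `ℚ̄`. -/
abbrev Qb : Type := AlgebraicClosure ℚ

/-- `Gal(ℚ̄/ℚ)`. -/
abbrev GQ : Type := AlgebraicClosure ℚ ≃ₐ[ℚ] AlgebraicClosure ℚ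

/-- `a` is an exponent of the action of `σ` on the `p`-th roots of unity. -/
def IsCycExp (p : ℕ) (σ : GQ) (a : ℕ) : Prop :=
  ∀ μ : Qb, μ ^ p = 1 → σ μ = μ ^ a

section Cocycles

variable {k : Type} [Field k] (ρbar : ResidualGaloisRep k) (p : ℕ)

/-- The twisted adjoint action `m ↦ a · ρ̄(σ) m ρ̄(σ)⁻¹` (with `a` a cyclotomic exponent of `σ`). -/
def twAd (σ : GQ) (a : ℕ) (m : Module.End k ρbar.V) : Module.End k ρbar.V :=
  (a : k) • (ρbar.ρ σ * m * ρbar.ρ σ⁻¹)

/-- `c` is a twisted cocycle with values in trace-zero endomorphisms, of finite level. -/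
structure IsTwCocycle (c : GQ → Module.End k ρbar.V) : Prop where
  trace_eq_zero : ∀ σ, LinearMap.trace k ρbar.V (c σ) = 0
  map_mul : ∀ σ τ a, IsCycExp p σ a → c (σ * τ) = c σ + twAd ρbar σ a (c τ)
  level : ∃ L : IntermediateField ℚ Qb, FiniteDimensional ℚ L ∧
    ∀ σ τ : GQ, (∀ x ∈ L, τ x = x) → c (σ * τ) = c σ

/-- `c` is the twisted coboundary of the trace-zero endomorphism `m` on the subgroup `H`. -/
def IsTwCoboundaryOn (H : Subgroup GQ) (c : GQ → Module.End k ρbar.V)
    (m : Module.End k ρbar.V) : Prop :=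
  LinearMap.trace k ρbar.V m = 0 ∧ ∀ σ ∈ H, ∀ a, IsCycExp p σ a → c σ = twAd ρbar σ a m - m

/-- `c` is locally trivial at `q`: on some decomposition group over `q` it is a coboundary. -/
def LocTrivAt (q : ℕ) (c : GQ → Module.End k ρbar.V) : Prop :=
  ∃ P : ValuationSubring Qb, P.LiesOverPrime q ∧
    ∃ m, IsTwCoboundaryOn ρbar p (P.decompositionSubgroup ℚ) c m

/-- `c` is a (global) twisted coboundary. -/
def IsTwCoboundary (c : GQ → Module.End k ρbar.V) : Prop :=
  ∃ m, IsTwCoboundaryOn ρbar p ⊤ c m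

/-- Taylor–Wiles primes (relative to `S`): `q ∉ S`, `q ≡ 1 mod p`, and every Frobenius element
over `q` has distinct eigenvalues in `k`. -/
def IsTWPrime (S : Finset ℕ) (q : ℕ) : Prop :=
  q.Prime ∧ q ∉ S ∧ p ∣ q - 1 ∧
    ∀ P : ValuationSubring Qb, P.LiesOverPrime q → ∀ φ : GQ, P.IsFrobeniusAt φ q →
      ∃ α β : k, α ≠ β ∧ LinearMap.charpoly (ρbar.ρ φ) = (X - C α) * (X - C β)

/-- A *dual Selmer frame*: a finite-dimensional `k`-space `D` of twisted cocycles which contains
no nonzero coboundary. -/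
structure IsDualFrame (D : Submodule k (GQ → Module.End k ρbar.V)) : Prop where
  isTwCocycle : ∀ c ∈ D, IsTwCocycle ρbar p c
  finite : Module.Finite k D
  inj : ∀ c ∈ D, IsTwCoboundary ρbar p c → c = 0

/-- The set `Q` kills the frame `D`: no nonzero `c ∈ D` is locally trivial at all `q ∈ Q`. -/
def Kills (D : Submodule k (GQ → Module.End k ρbar.V)) (Q : Finset ℕ) : Prop :=
  ∀ c ∈ D, (∀ q ∈ Q, LocTrivAt ρbar p q c) → c = 0

end Cocycles

section Conditions

/-- The type of deformation conditions. -/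
abbrev DefCond (𝒪 : Type) [CommRing 𝒪] : Type 1 :=
  ∀ ⦃A : Type⦄ [CommRing A] [IsLocalRing A] [Algebra 𝒪 A], GaloisRepAdic A → Prop

/-- The strict-ordinary condition of the frozen statement, with auxiliary set `Q`. -/
def ordCond (𝒪 : Type) [CommRing 𝒪] (p : ℕ) (Smin Q : Finset ℕ) : DefCond 𝒪 :=
  fun _A _ _ _ ρ =>
    GaloisRep.strictOrdinaryCondition 𝒪 p (Smin ∪ Q) ρ ∧
      ∀ q ∈ Smin, q.Prime → q ≠ p → ρ.IsUnipotentOnInertiaAt q

/-- The flat condition of the frozen statement, with auxiliary set `Q`. -/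
def flatCond (𝒪 : Type) [CommRing 𝒪] (p : ℕ) (Smin Q : Finset ℕ) : DefCond 𝒪 :=
  fun _A _ _ _ ρ =>
    GaloisRep.flatCondition 𝒪 p (Smin ∪ Q) ρ ∧
      ∀ q ∈ Smin, q.Prime → q ≠ p → ρ.IsUnipotentOnInertiaAt q

variable (𝒪 : Type) [CommRing 𝒪] [IsLocalRing 𝒪]

/-- The `𝒪`-algebra structure on the dual numbers `k[ε]` over the residue field (the one of the
Prelude's `TangentFinite` and of `Fermat.Agent.S53.dualAlgebra`). -/
@[reducible] noncomputable def tanAlgebra : Algebra 𝒪 (DualNumber (ResidueField 𝒪)) :=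
  ((algebraMap (ResidueField 𝒪) (DualNumber (ResidueField 𝒪))).comp
    (algebraMap 𝒪 (ResidueField 𝒪))).toAlgebra

/-- The tangent vectors of an `𝒪`-algebra `R`: `𝒪`-algebra homomorphisms `R → k[ε]`. -/
abbrev TanHom (R : Type) [CommRing R] [Algebra 𝒪 R] : Type :=
  @AlgHom 𝒪 R (DualNumber (ResidueField 𝒪)) _ _ _ _ (tanAlgebra 𝒪)

end Conditions

end Fermat.Agent.S56

end
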