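import Fermat.Agent.S56.Glue
import Fermat.Agent.S56.H956.TWP
import Fermat.Agent.S56.P3.H306.TWElement
import Fermat.Agent.Lib.Cheb.FrobeniusDivision
import Fermat.Agent.S56.H134.P1
import Fermat.Agent.S56.H716.TBGlue
import Fermat.Agent.S56.H596.Dict

/-!
# Row S56 — ASSEMBLY of the finished pieces (row-lead helper956)

Everything of S56 except the Selmer bound is proved:

* `twPrimes : TWPrimesStatement`                      (TWP ⇐ P3 + Lib/Cheb Tier 1)
* `tangentBoundOrd_of_selBound`, `tangentBoundFlat_of_selBound` : SELBOUND ⇒ TB (DICT proved)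
* P1 = `H134.powerSeriesSurj`.

So  `S56 ⇐ H716.SelBoundOrdStatement + H716.SelBoundFlatStatement`  via `Glue.result_of_inputs`.
-/

set_option autoImplicit false

namespace Fermat.Agent.S56

/-- **(TWP)** Taylor–Wiles primes killing a dual Selmer frame exist. -/
theorem twPrimes : TWPrimesStatement :=
  H956.twPrimesOfElement P3.H306.twElement Fermat.Agent.Lib.Cheb.frobeniusDivision

/-- **(P1)** few tangent vectors ⇒ quotient of a power series ring. -/
theorem powerSeriesSurj : PowerSeriesSurjStatement :=
  H134.powerSeriesSurj

/-- (TB-ord) from the Selmer bound. -/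
theorem tangentBoundOrd_of_selBound (h : H716.SelBoundOrdStatement) :
    TangentBoundOrdStatement :=
  H716.tangentBoundOrd_of H596.dictOrd h

/-- (TB-flat) from the Selmer bound. -/
theorem tangentBoundFlat_of_selBound (h : H716.SelBoundFlatStatement) :
    TangentBoundFlatStatement :=
  H716.tangentBoundFlat_of H596.dictFlat h

end Fermat.Agent.S56
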