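import Fermat.Agent.S56.Assembly
import Fermat.Agent.S56.H716.GWGlue

/-!
# Row S56 — FINAL reduction (row-lead helper956)

`S56 ⇐ LocMin + LocOrdP + LocFlatP + Base + RecQ`  (the five open Props of `H716/{SBSpec,GWSpec}.lean`).
Everything else (P1, P3, TWP, DICT and all glue) is proved.

`Fermat/Agent/S56.lean` will be

    exact Fermat.Agent.S56.result_of_inputs
      (Fermat.Agent.S56.tangentBoundOrd_of_five  locMin locOrdP  base recQ)
      (Fermat.Agent.S56.tangentBoundFlat_of_five locMin locFlatP base recQ)
      Fermat.Agent.S56.powerSeriesSurj Fermat.Agent.S56.twPrimes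
      p hp2 hp𝒪 ρbar habs hdet hsplit hTW S Smin hpSmin hSmin hS hmin
-/

set_option autoImplicit false

namespace Fermat.Agent.S56

/-- (TB-ord) from the open Props. -/
theorem tangentBoundOrd_of_five (hmin : H716.LocMinStatement) (hord : H716.LocOrdPStatement)
    (hb : H716.BaseStatement) (hr : H716.RecQStatement) : TangentBoundOrdStatement :=
  H716.tangentBoundOrd_of_walls H596.dictOrd hmin hord hb hr

/-- (TB-flat) from the open Props. -/
theorem tangentBoundFlat_of_five (hmin : H716.LocMinStatement) (hflat : H716.LocFlatPStatement)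
    (hb : H716.BaseStatement) (hr : H716.RecQStatement) : TangentBoundFlatStatement :=
  H716.tangentBoundFlat_of_walls H596.dictFlat hmin hflat hb hr

end Fermat.Agent.S56
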