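import Fermat.Agent.S56.Final
import Fermat.Agent.S56.H606.LocMin
import Fermat.Agent.S56.H656.LocOrdP

/-!
# Row S56 — FINAL reduction, v3 (row-lead helper956): three Props left

LOC-MIN (`H606.locMin`) and LOC-SO (`H656.locOrdP`) are proved.  Hence

    `S56 ⇐ H716.LocFlatPStatement + H716.BaseStatement + H716.RecQStatement`.

`Fermat/Agent/S56.lean` will be

    exact Fermat.Agent.S56.result_of_inputs
      (Fermat.Agent.S56.tangentBoundOrd_of_three base recQ)
      (Fermat.Agent.S56.tangentBoundFlat_of_three locFlatP base recQ)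
      Fermat.Agent.S56.powerSeriesSurj Fermat.Agent.S56.twPrimes
      p hp2 hp𝒪 ρbar habs hdet hsplit hTW S Smin hpSmin hSmin hS hmin
-/

set_option autoImplicit false

namespace Fermat.Agent.S56

/-- (TB-ord) from BASE and REC-Q. -/
theorem tangentBoundOrd_of_three (hb : H716.BaseStatement) (hr : H716.RecQStatement) :
    TangentBoundOrdStatement :=
  tangentBoundOrd_of_five H606.locMin H656.locOrdP hb hr

/-- (TB-flat) from LOC-FLAT, BASE and REC-Q. -/
theorem tangentBoundFlat_of_three (hflat : H716.LocFlatPStatement) (hb : H716.BaseStatement)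
    (hr : H716.RecQStatement) : TangentBoundFlatStatement :=
  tangentBoundFlat_of_five H606.locMin hflat hb hr

end Fermat.Agent.S56
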