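import Fermat.Agent.S56.FinalC2
import Fermat.Agent.S55
import Fermat.Agent.S55.K.AR.ClosedH4
import Fermat.Agent.S55.KL.ClosedA4
import Fermat.Agent.S56.Euler.Big.Glue
import Fermat.Agent.S56.Euler.Big.Red
import Fermat.Agent.S56.Euler.Big.H2FS55H595
import Fermat.Agent.S56.Euler.Big.H2CPH765
import Fermat.Agent.S56.H614.Red
import Fermat.Agent.S56.H314.LemmaA
import Fermat.Agent.S56.H419.CharEulerAsm
import Fermat.Agent.S56.Euler.H74.ClKum
import Fermat.Agent.S56.Br.H374.BridgeBase

/-!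
# Row S56 — FINAL reduction, route C, v3 (row-lead helper956): BASE-BIG assembled

Everything on main is plugged in (S55 = `Fermat.Agent.S55.result`; A3 = `K.AR.H4.surj2Glob`;
A4 = `KL.A4.surj2Loc`; layer G = `Fin.globalInputSpec`; BRIDGE-BASE, RED, LemmaA, ASM, CL, SHA2,
H2F, H2-CP, HERB, H0, ADD).  Open inputs, as hypotheses:

* `InvAll`  : `∀ p S, p ≠ 2 → pPrime p ∈ S → PT.InvSpec p S`   (S55 layer INV, helper3);
* `P1All`   : `∀ p, H419.P1CharSpec p`                          (P1-CHAR, helper184).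

    `baseBig_of_open : InvAll → P1All → H716.BaseBigStatement`
    `result_of_open  : InvAll → P1All → (the frozen statement S56)`.
-/

set_option autoImplicit false

open Polynomial IsLocalRing

namespace Fermat.Agent.S56

open Fermat.Agent.S55 Fermat.Agent.S55.PT ExtCitation

/-- Input (A5–A7) for all odd `p ∈ S`. -/
def InvAll : Prop :=
  ∀ (p : ℕ) [Fact p.Prime] (S : Finset Nat.Primes), p ≠ 2 → pPrime p ∈ S → InvSpec p S

/-- Input (P1-CHAR) for all `p`. -/
def P1All : Prop := ∀ (p : ℕ) [Fact p.Prime], H419.P1CharSpec p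

/-- The frozen statement S55, from `Fermat.Agent.S55.result`. -/
theorem s55Frozen : PT.H595.S55Frozen :=
  fun {_p} _ hp2 S hpS M _ hsm hMur => Fermat.Agent.S55.result hp2 S hpS M hsm hMur

section

variable (p : ℕ) [Fact p.Prime]

/-- (A3) for all odd `p ∈ S`. -/
theorem surj2GlobAll (S : Finset Nat.Primes) (hp2 : p ≠ 2) (hpS : pPrime p ∈ S) :
    Surj2GlobSpec p S :=
  K.AR.H4.surj2Glob p S (Fin.globalInputSpec p hp2 S hpS) hp2 hpS

/-- (H2F) from the open input `InvAll`. -/
theorem h2FormulaAll (hInv : InvAll) (S : Finset Nat.Primes) : Euler.H2FormulaSpec p S :=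
  fun hp2 hpS => Euler.H595.h2Formula_of_s55 p S s55Frozen (surj2GlobAll p S hp2 hpS)
    (KL.A4.surj2Loc p S) (hInv p S hp2 hpS) hp2 hpS

/-- (H2-CP) from the open input `InvAll`. -/
theorem h2cpAll (hInv : InvAll) (S : Finset Nat.Primes) : Euler.H2CPSpec p S := by
  intro hp2 hpS
  obtain ⟨inv, hrec, hTLI, hTGI⟩ := hInv p S hp2 hpS
  have hrec' : IsRecip (hrl S) (cycloChar p) inv := hrec
  have hSurjL : Surj2LocSpec p S := KL.A4.surj2Loc p S
  have hTopL : TopLocSpec inv :=
    H299.topLocDev p S H113.lesMidSpec H724.localNormalCofinal H724.localFiniteIndex inv hTLI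
      hSurjL
  have hTopG : TopGlobSpec inv hrec' :=
    H123.topGlobDev p S H113.lesMidSpec H724.globalNormalCofinal H724.localNormalCofinal
      H724.globalFiniteIndex hpS inv hrec' hTopL hTGI (surj2GlobAll p S hp2 hpS) hSurjL
  exact Euler.H765.h2cp_of p S inv hrec' hTopL hTopG hp2 hpS

/-- (SHA) from S55. -/
theorem sha2IndAll (hp2 : p ≠ 2) : H419.Sha2IndSpec p := by
  intro S₀ hpS₀ U hUn hU hχ
  refine Euler.H726.exists_sha2_indMu_eq_bot p S₀
    (Euler.H595.theoremD_all_of_s55 p S₀ s55Frozen hp2 hpS₀) U hU hUn ?_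
  intro u hu
  apply LinearMap.ext
  intro x
  rw [H419.mu_ρ_apply, hχ u hu]
  simp

/-- (CL), from `Euler.H74.exists_noPTorsH1E`. -/
theorem clAll : H419.ClSpec p := by
  intro _ S₁ _ U _ hU _
  obtain ⟨S, hS, h⟩ := Euler.H74.exists_noPTorsH1E p S₁ S₁ (Finset.Subset.refl _) U hU
  exact ⟨S, hS, h S (Finset.Subset.refl _)⟩

/-- (E-BIG) from the open inputs. -/
theorem eulerBigAll (hInv : InvAll) (hP1 : P1All) : Euler.EulerBigSpec p := by
  intro hp2
  refine Euler.eulerBig_of_red (H614.red_of H314.lemmaA) (fun S hpS => ?_) (fun S hpS => ?_)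
    (H419.charEulerBig_of (h2cpAll p hInv) (sha2IndAll p hp2) (clAll p) (hP1 p)) hp2
  · exact H419.phiAdd_of p S H113.les0Spec H113.les1Spec H113.lesMidSpec
      H724.globalNormalCofinal (H593.finGlob p S)
      (fun N hN hsm => (h2FormulaAll p hInv S hp2 hpS N hN hsm).1) (surj2GlobAll p S hp2 hpS)
  · exact fun N hN hsm => (h2FormulaAll p hInv S hp2 hpS N hN hsm).1

end

/-- **BASE-BIG from the open inputs.** -/
theorem baseBig_of_open (hInv : InvAll) (hP1 : P1All) : H716.BaseBigStatement :=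
  Euler.baseBig_of (fun p _ => eulerBigAll p hInv hP1) (fun p _ S => h2FormulaAll p hInv S)
    Br.bridgeBase

end Fermat.Agent.S56
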