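import Fermat.Agent.S56.FinalC3
import Fermat.Agent.S56.Euler.H184.P1Spec
import Fermat.Agent.S55.PT.Final4
import Fermat.Agent.S55.G.Rec.ClosedH904
import Fermat.Agent.S55.Inv.GO4.ShapH593
import Fermat.Agent.S55.Inv.GO4.AsmE
import Fermat.Agent.S55.Inv.GO4.H978.LocDesc

/-!
# Row S56 — CLOSED (row-lead helper956): the frozen statement S56, unconditionally

The two open inputs of `S56/FinalC3.lean` are closed:

* `invAll : InvAll` — `PT.InvSpec p S` for all odd `p ∈ S`: the assembly of helper3
  (`S55/Inv/Closed.lean`, `invSpec_closed`) with layer G taken from `Fin.globalInputSpec`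
  (the closed form used by `Fermat/Agent/S55.lean`): reciprocity `G.Rec.H904` (helper904),
  GO4 = SHAP (helper593) + ASM (helper3) + LOC-DESC (helper978) + `K.AR.H4.cokerTower` (helper4)
  + AR-DEG (helper181);
* `p1All : P1All` — `Euler.H184.p1CharSpec` (helper184).

    `baseBig : H716.BaseBigStatement`
    `result_closed : (the frozen statement S56)`.
-/

set_option autoImplicit false

open Polynomial IsLocalRing

namespace Fermat.Agent.S56

open Fermat.Agent.S55 Fermat.Agent.S55.PT ExtCitation

/-- **`PT.InvSpec` (A5–A7) for all odd `p ∈ S`.** -/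
theorem invAll : InvAll := fun p _ S hp2 hpS =>
  G.Rec.H904.nonempty_localInvSystem.elim fun I =>
    PT.invSpec_of_rec hp2 S hpS I (G.Rec.H904.reciprocity I p hp2)
      (Inv.GO4.asm p S
        (Inv.GO4.H593.shapLeaf p S (K.AR.H4.cokerTower (Fin.globalInputSpec p hp2 S hpS) hp2 hpS))
        (Inv.GO4.H978.locDesc p S (Fact.out : p.Prime)
          (K.AR.H181.decLeaf S p ⟨(Fact.out : p.Prime), hp2, hpS⟩)))

/-- **(P1-CHAR) for all `p`.** -/
theorem p1All : P1All := fun p _ => Euler.H184.p1CharSpec p

/-- **BASE-BIG**, unconditional. -/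
theorem baseBig : H716.BaseBigStatement := baseBig_of_open invAll p1All

end Fermat.Agent.S56
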