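import Fermat.Agent.S56.Defs
import Fermat.Agent.Lib.Cheb.Spec

/-!
# Row S56 — FROZEN interface statements, layer 0 (row-lead helper956)

`S56 ⇐ TB(ord) + TB(flat) + P1 + TWP`   (glue: `Fermat/Agent/S56/Glue.lean`, sorry-free)
`TWP ⇐ P3 (TWElement) + Lib/Cheb Tier 1`

* `TangentBoundOrdStatement`, `TangentBoundFlatStatement` (TB): there is a dual Selmer frame `D`
  such that for every set `Q` of Taylor–Wiles primes killing `D`, every universal deformation ring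
  `R_Q` has at most `|k|^{|Q|}` tangent vectors `R_Q → k[ε]`.
  (= dictionary tangent space ↪ Selmer group, Greenberg–Wiles formula, local computations.)
* `PowerSeriesSurjStatement` (P1): at most `|k|^r` tangent vectors ⇒ `𝒪⟦X₁..X_r⟧ ↠ R`.
* `TWElementStatement` (P3): group theory (DDT Lemma 2.48/Thm 2.49): for a nonzero class `c`
  there is `σ` fixing `μ_{p^{n+1}}` with distinct eigenvalues and `c(σ) ∉ (ρ̄(σ) − 1) ad⁰`.
* `TWPrimesStatement` (TWP): `r = dim D` Taylor–Wiles primes `≡ 1 mod p^{n+1}` killing `D`.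

All pieces are proved as `theorem xxx : XxxStatement` in `Fermat/Agent/S56/H<seat>/*.lean`.
-/

set_option autoImplicit false

open Polynomial IsLocalRing

noncomputable section

namespace Fermat.Agent.S56

/-- The standing hypotheses of the frozen statement S56. -/
structure Hyp (𝒪 : Type) [CommRing 𝒪] [IsDomain 𝒪] [IsDiscreteValuationRing 𝒪]
    (p : ℕ) (ρbar : ResidualGaloisRep (ResidueField 𝒪)) (S Smin : Finset ℕ) : Prop where
  hp : p.Prime
  hp2 : p ≠ 2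
  hp𝒪 : (p : 𝒪) ∈ maximalIdeal 𝒪
  habs : ρbar.IsAbsolutelyIrreducible
  hdet : (GaloisRepAdic.ofResidualGaloisRep ρbar).DetIsCyclotomic p
  hsplit : ∀ σ : GQ, ∃ α β : ResidueField 𝒪,
    LinearMap.charpoly (ρbar.ρ σ) = (X - C α) * (X - C β)
  hTW : ∀ (K : Type) [Field K] [Algebra (ResidueField 𝒪) K] (G : Subgroup GQ), G.index = 2 →
    ∀ V : Submodule K (ρbar.baseChange K).V,
      (∀ σ ∈ G, ∀ x ∈ V, (ρbar.baseChange K).ρ σ x ∈ V) → V = ⊥ ∨ V = ⊤
  hpSmin : p ∈ Smin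
  hSmin : Smin ⊆ S
  hS : ∀ q ∈ S, q.Prime
  hmin : ∀ q : ℕ, q.Prime → q ≠ p → (q ∈ Smin ↔ ¬ ρbar.IsUnramifiedAt q)

/-- (TB) for a family of deformation conditions indexed by the auxiliary set `Q`. -/
def TangentBound (𝒪 : Type) [CommRing 𝒪] [IsDomain 𝒪] [IsDiscreteValuationRing 𝒪]
    [IsAdicComplete (maximalIdeal 𝒪) 𝒪]
    (p : ℕ) (ρbar : ResidualGaloisRep (ResidueField 𝒪)) (S : Finset ℕ)
    (cond : Finset ℕ → DefCond 𝒪) : Prop :=
  ∃ D : Submodule (ResidueField 𝒪) (GQ → Module.End (ResidueField 𝒪) ρbar.V),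
    IsDualFrame ρbar p D ∧
    ∀ Q : Finset ℕ, (∀ q ∈ Q, IsTWPrime ρbar p S q) → Kills ρbar p D Q →
      ∀ DQ : GaloisRep.DeformationRingData 𝒪 ρbar (cond Q),
        Finite (TanHom 𝒪 DQ.R) ∧
          Nat.card (TanHom 𝒪 DQ.R) ≤ Nat.card (ResidueField 𝒪) ^ Q.card

/-- (TB-ord) tangent bound for the strict-ordinary condition. -/
def TangentBoundOrdStatement : Prop :=
  ∀ (𝒪 : Type) [CommRing 𝒪] [IsDomain 𝒪] [IsDiscreteValuationRing 𝒪]
    [IsAdicComplete (maximalIdeal 𝒪) 𝒪] [Finite (ResidueField 𝒪)]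
    (p : ℕ) (ρbar : ResidualGaloisRep (ResidueField 𝒪)) (S Smin : Finset ℕ),
    Hyp 𝒪 p ρbar S Smin → TangentBound 𝒪 p ρbar S (ordCond 𝒪 p Smin)

/-- (TB-flat) tangent bound for the flat condition. -/
def TangentBoundFlatStatement : Prop :=
  ∀ (𝒪 : Type) [CommRing 𝒪] [IsDomain 𝒪] [IsDiscreteValuationRing 𝒪]
    [IsAdicComplete (maximalIdeal 𝒪) 𝒪] [Finite (ResidueField 𝒪)]
    (p : ℕ) (ρbar : ResidualGaloisRep (ResidueField 𝒪)) (S Smin : Finset ℕ),
    Hyp 𝒪 p ρbar S Smin → TangentBound 𝒪 p ρbar S (flatCond 𝒪 p Smin)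

/-- (P1) commutative algebra: few tangent vectors ⇒ quotient of a power series ring. -/
def PowerSeriesSurjStatement : Prop :=
  ∀ (𝒪 : Type) [CommRing 𝒪] [IsDomain 𝒪] [IsDiscreteValuationRing 𝒪]
    [IsAdicComplete (maximalIdeal 𝒪) 𝒪] [Finite (ResidueField 𝒪)]
    (R : Type) [CommRing R] [IsLocalRing R] [IsNoetherianRing R]
    [IsAdicComplete (maximalIdeal R) R] [Algebra 𝒪 R] [IsLocalHom (algebraMap 𝒪 R)],
    Function.Surjective (IsLocalRing.residue R ∘ algebraMap 𝒪 R) →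
    ∀ r : ℕ, Finite (TanHom 𝒪 R) →
      Nat.card (TanHom 𝒪 R) ≤ Nat.card (ResidueField 𝒪) ^ r →
      ∃ γ : MvPowerSeries (Fin r) 𝒪 →ₐ[𝒪] R, Function.Surjective γ

/-- (TWP) existence of Taylor–Wiles primes killing a dual Selmer frame. -/
def TWPrimesStatement : Prop :=
  ∀ (𝒪 : Type) [CommRing 𝒪] [IsDomain 𝒪] [IsDiscreteValuationRing 𝒪]
    [IsAdicComplete (maximalIdeal 𝒪) 𝒪] [Finite (ResidueField 𝒪)]
    (p : ℕ) (ρbar : ResidualGaloisRep (ResidueField 𝒪)) (S Smin : Finset ℕ),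
    Hyp 𝒪 p ρbar S Smin →
    ∀ D : Submodule (ResidueField 𝒪) (GQ → Module.End (ResidueField 𝒪) ρbar.V),
      IsDualFrame ρbar p D → ∀ n : ℕ,
      ∃ qv : Fin (Module.finrank (ResidueField 𝒪) D) → ℕ, Function.Injective qv ∧
        (∀ i, (qv i).Prime ∧ qv i ∉ S ∧ p ^ (n + 1) ∣ qv i - 1) ∧
        (∀ i, ∀ P : ValuationSubring Qb, P.LiesOverPrime (qv i) →
          ∀ φ : GQ, P.IsFrobeniusAt φ (qv i) →
            ∃ α β : ResidueField 𝒪, α ≠ β ∧
              LinearMap.charpoly (ρbar.ρ φ) = (X - C α) * (X - C β)) ∧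
        Kills ρbar p D (Finset.univ.image qv)

/-- (P3) the Taylor–Wiles element: group theory of `ρ̄` and `ad⁰ρ̄(1)`.
Part 1: for a cocycle which is not a coboundary; part 2: without cocycle. -/
def TWElementStatement : Prop :=
  ∀ (𝒪 : Type) [CommRing 𝒪] [IsDomain 𝒪] [IsDiscreteValuationRing 𝒪]
    [IsAdicComplete (maximalIdeal 𝒪) 𝒪] [Finite (ResidueField 𝒪)]
    (p : ℕ) (ρbar : ResidualGaloisRep (ResidueField 𝒪)) (S Smin : Finset ℕ),
    Hyp 𝒪 p ρbar S Smin →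
    (∀ c : GQ → Module.End (ResidueField 𝒪) ρbar.V, IsTwCocycle ρbar p c →
      ¬ IsTwCoboundary ρbar p c → ∀ n : ℕ,
      ∃ σ : GQ, (∀ μ : Qb, μ ^ p ^ (n + 1) = 1 → σ μ = μ) ∧
        (∃ α β : ResidueField 𝒪, α ≠ β ∧
          LinearMap.charpoly (ρbar.ρ σ) = (X - C α) * (X - C β)) ∧
        ∀ m : Module.End (ResidueField 𝒪) ρbar.V,
          LinearMap.trace (ResidueField 𝒪) ρbar.V m = 0 →
            c σ ≠ ρbar.ρ σ * m * ρbar.ρ σ⁻¹ - m) ∧
    (∀ n : ℕ, ∃ σ : GQ, (∀ μ : Qb, μ ^ p ^ (n + 1) = 1 → σ μ = μ) ∧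
        ∃ α β : ResidueField 𝒪, α ≠ β ∧
          LinearMap.charpoly (ρbar.ρ σ) = (X - C α) * (X - C β))

/-- (TWP-of) Taylor–Wiles primes from the Taylor–Wiles element and Frobenius density. -/
def TWPrimesOfElementStatement : Prop :=
  TWElementStatement → Fermat.Agent.Lib.Cheb.Spec.FrobeniusDivisionStatement → TWPrimesStatement

end Fermat.Agent.S56

end
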